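import Fermat.Agent.S55.Cap.IndM

/-!
# S55 / A8 (CAP), leaf C1 — abstract cochain lemmas   (helper424)

Pure group theory, additive `G`-modules (`AddCommGroup` + `DistribMulAction`).

* `transfer_coboundary` : a 1-cocycle of a finite group `G` which is a coboundary on a subgroup
  `P` becomes a coboundary after multiplication by `[G : P]`;
* `IndM.toF_smul_apply` : the diagonal action of `IndM U X` in coordinates;
* `indShapiro₁` : Shapiro's lemma in degree 1 for `IndM U X`, cochain form;
* `IndM.exists_map_eq_of_forall`, `IndM.ext'` : coefficientwise lifting / extensionality.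
-/

set_option autoImplicit false
set_option linter.unusedVariables false
set_option linter.unusedSectionVars false

noncomputable section

namespace Fermat.Agent.S55.Cap.H424

open Fermat.Agent.S55.Cap

/-! ### transfer -/

section Transfer

variable {G A : Type} [Group G] [Finite G] [AddCommGroup A] [DistribMulAction G A]

/-- **Transfer.**  If the 1-cocycle `z` of the finite group `G` is the coboundary of `y` on the
subgroup `P`, then `[G : P] • z` is a coboundary on `G`. -/
theorem transfer_coboundary (P : Subgroup G) (z : G → A)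
    (hz : ∀ s t, z (s * t) = z s + s • z t)
    (y : A) (hy : ∀ t ∈ P, z t = t • y - y) :
    ∃ c : A, ∀ g : G, P.index • z g = g • c - c := by
  classical
  haveI : Fintype (G ⧸ P) := Fintype.ofFinite _
  set z' : G → A := fun g => z g - (g • y - y) with hz'
  have hz'c : ∀ s t, z' (s * t) = z' s + s • z' t := by
    intro s t
    simp only [hz', hz s t, mul_smul, smul_sub]
    abel
  have hz'P : ∀ t ∈ P, z' t = 0 := fun t ht => by simp only [hz', hy t ht, sub_self]
  have hz'r : ∀ g, ∀ t ∈ P, z' (g * t) = z' g := fun g t ht => by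
    rw [hz'c, hz'P t ht, smul_zero, add_zero]
  let zb : G ⧸ P → A := Quotient.lift z' (by
    intro a b hab
    have h1 : a⁻¹ * b ∈ P := QuotientGroup.leftRel_apply.1 hab
    have h2 := hz'r a _ h1
    rw [mul_inv_cancel_left] at h2
    exact h2.symm)
  have key2 : ∀ g : G, ∀ x : G ⧸ P, zb (g • x) = z' g + g • zb x := by
    intro g x
    induction x using QuotientGroup.induction_on with
    | H h => exact hz'c g h
  set w : A := ∑ x : G ⧸ P, zb x with hw
  have key : ∀ g : G, ∑ x : G ⧸ P, zb (g • x) = w := fun g =>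
    Fintype.sum_equiv (MulAction.toPerm g) _ _ (fun x => rfl)
  have hcard : Fintype.card (G ⧸ P) = P.index := by
    rw [Subgroup.index, Nat.card_eq_fintype_card]
  have h1 : ∀ g : G, w = P.index • z' g + g • w := by
    intro g
    have h := key g
    simp only [key2, Finset.sum_add_distrib, Finset.sum_const, Finset.card_univ] at h
    rw [← Finset.smul_sum, hcard] at h
    exact h.symm
  refine ⟨P.index • y - w, fun g => ?_⟩
  have h2 : P.index • z g = P.index • z' g + P.index • (g • y - y) := by
    rw [← nsmul_add]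
    simp only [hz', sub_add_cancel]
  have h3 : P.index • z' g = w - g • w := eq_sub_of_add_eq (h1 g).symm
  rw [h2, h3, nsmul_sub, smul_sub, smul_comm g P.index y]
  abel

end Transfer

/-! ### coordinates in `IndM U X` -/

section IndM

variable {G : Type} [Group G] (U : Subgroup G) {X Y : Type} [AddCommGroup X] [AddCommGroup Y]

lemma IndM.ext' {F F' : IndM U X} (h : ∀ x, IndM.toF U F x = IndM.toF U F' x) : F = F' :=
  Finsupp.ext h

open scoped Classical in
lemma IndM.toF_single (x₀ x : G ⧸ U) (a : X) :
    IndM.toF U (IndM.single U x₀ a) x = if x₀ = x then a else 0 :=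
  Finsupp.single_apply

lemma IndM.toF_add (F F' : IndM U X) (x : G ⧸ U) :
    IndM.toF U (F + F') x = IndM.toF U F x + IndM.toF U F' x := rfl

lemma IndM.toF_sub (F F' : IndM U X) (x : G ⧸ U) :
    IndM.toF U (F - F') x = IndM.toF U F x - IndM.toF U F' x := rfl

lemma IndM.toF_zero (x : G ⧸ U) : IndM.toF U (0 : IndM U X) x = 0 := rfl

lemma IndM.toF_nsmul (n : ℕ) (F : IndM U X) (x : G ⧸ U) :
    IndM.toF U (n • F) x = n • IndM.toF U F x := rfl

/-- the element of `IndM U X` with given coefficients (`G ⧸ U` finite) -/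
def IndM.ofFun [Finite (G ⧸ U)] (φ : G ⧸ U → X) : IndM U X :=
  IndM.ofF U (Finsupp.equivFunOnFinite.symm φ)

@[simp] lemma IndM.toF_ofFun [Finite (G ⧸ U)] (φ : G ⧸ U → X) (x : G ⧸ U) :
    IndM.toF U (IndM.ofFun U φ) x = φ x := rfl

/-- coefficientwise lifting along an additive map -/
lemma IndM.exists_map_eq_of_forall (φ : X →+ Y) (F : IndM U Y)
    (h : ∀ x, ∃ a : X, φ a = IndM.toF U F x) : ∃ F' : IndM U X, IndM.map U φ F' = F := by
  classical
  choose s hs using h
  refine ⟨IndM.ofF U (Finsupp.onFinset (IndM.toF U F).support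
    (fun x => if IndM.toF U F x = 0 then 0 else s x) (fun x hx => ?_)), ?_⟩
  · rw [Finsupp.mem_support_iff]
    intro h0
    exact hx (by rw [if_pos h0])
  · apply Finsupp.ext
    intro x
    show φ (if IndM.toF U F x = 0 then 0 else s x) = IndM.toF U F x
    split_ifs with h0
    · rw [map_zero, h0]
    · exact hs x

variable [DistribMulAction G X]

/-- the diagonal action in coordinates -/
lemma IndM.toF_smul_apply (g : G) (F : IndM U X) (x : G ⧸ U) :
    IndM.toF U (g • F) x = g • IndM.toF U F (g⁻¹ • x) := by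
  classical
  induction F using IndM.induction_on with
  | h0 => rw [smul_zero, IndM.toF_zero, IndM.toF_zero, smul_zero]
  | hadd F F' hF hF' =>
    rw [smul_add, IndM.toF_add, IndM.toF_add, hF, hF', smul_add]
  | hsingle x₀ a =>
    rw [IndM.smul_single, IndM.toF_single, IndM.toF_single]
    by_cases h : x₀ = g⁻¹ • x
    · rw [if_pos h, if_pos (by rw [h, smul_inv_smul])]
    · rw [if_neg h, if_neg (fun h' => h (by rw [← h', inv_smul_smul])), smul_zero]

/-- **Shapiro's lemma in degree 1 for `Ind_U X`**, cochain form: a 1-cocycle `f : G → Ind_U X`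
whose "restriction" `u ↦ f(u)(1̄)` to `U` is the coboundary of `x₀` is a coboundary. -/
theorem indShapiro₁ [Finite (G ⧸ U)] (f : G → IndM U X)
    (hf : ∀ g h, f (g * h) = f g + g • f h)
    (x₀ : X) (hx : ∀ u ∈ U, IndM.toF U (f u) ((1 : G) : G ⧸ U) = u • x₀ - x₀) :
    ∃ F : IndM U X, ∀ g, f g = g • F - F := by
  classical
  -- evaluation of the cocycle relation
  have hf' : ∀ (g h : G) (x : G ⧸ U),
      IndM.toF U (f (g * h)) x = IndM.toF U (f g) x + g • IndM.toF U (f h) (g⁻¹ • x) := by
    intro g h x
    rw [hf, IndM.toF_add, IndM.toF_smul_apply]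
  -- the candidate, on representatives
  let φ : G → X := fun g => g • x₀ - IndM.toF U (f g) (g : G ⧸ U)
  have hφ : ∀ (g : G) (u : G), u ∈ U → φ (g * u) = φ g := by
    intro g u hu
    have h1 : ((g * u : G) : G ⧸ U) = (g : G ⧸ U) := by
      rw [QuotientGroup.eq]
      simpa using U.inv_mem hu
    have h2 : g⁻¹ • ((g : G) : G ⧸ U) = ((1 : G) : G ⧸ U) := by
      show ((g⁻¹ * g : G) : G ⧸ U) = _
      rw [inv_mul_cancel]
    show (g * u) • x₀ - IndM.toF U (f (g * u)) ((g * u : G) : G ⧸ U) = _
    rw [h1, hf', h2, hx u hu, mul_smul, smul_sub]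
    show _ = g • x₀ - IndM.toF U (f g) (g : G ⧸ U)
    abel
  let φb : G ⧸ U → X := Quotient.lift φ (by
    intro a b hab
    have h1 : a⁻¹ * b ∈ U := QuotientGroup.leftRel_apply.1 hab
    have h2 := hφ a _ h1
    rw [mul_inv_cancel_left] at h2
    exact h2.symm)
  have hφb : ∀ g : G, φb (g : G ⧸ U) = g • x₀ - IndM.toF U (f g) (g : G ⧸ U) := fun g => rfl
  refine ⟨IndM.ofFun U φb, fun g => ?_⟩
  apply IndM.ext'
  intro x
  induction x using QuotientGroup.induction_on with
  | H h =>
    rw [IndM.toF_sub, IndM.toF_smul_apply, IndM.toF_ofFun, IndM.toF_ofFun]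
    have h1 : g⁻¹ • ((h : G) : G ⧸ U) = ((g⁻¹ * h : G) : G ⧸ U) := rfl
    rw [h1, hφb, hφb]
    have h2 := hf' g (g⁻¹ * h) (h : G ⧸ U)
    rw [mul_inv_cancel_left, h1] at h2
    rw [h2, smul_sub, ← mul_smul, mul_inv_cancel_left]
    abel

end IndM

end Fermat.Agent.S55.Cap.H424
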