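import Fermat.Agent.S55.Cap.Spec
import Fermat.Agent.S55.E1.Lim.Obj

/-!
# S55 / A8 (CAP), leaf C1 — dictionary between the big modules and the finite levels (helper424)

* `ofJ L q : (L.J q).V →+ JJ S q` : `J_q(F)` as the `U_F`-invariants of `𝕁_q`
  (`ofJ_injective`, `ofJ_smul`, `ofJ_trJ`, `exists_ofJ_eq`);
* `ofJtot L : (Jtot L).V →+ JJS S` : the same for `J(F) = ∏_q J_q(F)`;
* `suOf L e he : SU S` : an `S`-unit of level `L` as a smooth `S`-unit, `iEJ_suOf`;
* `jTot_eq_zero_iff` : GD4 in terms of the big modules.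
-/

set_option autoImplicit false
set_option linter.unusedVariables false
set_option linter.unusedSectionVars false
set_option linter.style.haveILetI false

noncomputable section

namespace Fermat.Agent.S55.Cap.H424

open Fermat.Agent.S55.PT Fermat.Agent.S55.Tow Fermat.Agent.S55.E1.Lim Fermat.Agent.S55.Cap

variable {S : Finset Nat.Primes}

/-! ### `J_q(F) → 𝕁_q` -/

lemma mk_mul_of_mem (L : Level S) (g : Tow.GQ) {u : Tow.GQ} (hu : u ∈ L.U) :
    (QuotientGroup.mk (g * u) : L.Gal) = QuotientGroup.mk g := by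
  rw [QuotientGroup.mk_mul, (QuotientGroup.eq_one_iff u).2 hu, mul_one]

/-- the smooth function attached to an element of `J_q(F)` -/
def ofJ (L : Level S) (q : Nat.Primes) : (L.J q).V →+ JJ S q where
  toFun f := JJ.mk S q (fun g => L.locCoe q (L.Jeval q f (QuotientGroup.mk g)))
    (fun d g => by
      have h1 : (QuotientGroup.mk (locQ q d * g) : L.Gal) =
          L.decHom q (QuotientGroup.mk d) * QuotientGroup.mk g := rfl
      rw [h1, L.Jeval_mul, Level.locUnits_ρ_coe])
    ⟨L, fun u hu g => by rw [mk_mul_of_mem L g hu]⟩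
  map_zero' := by
    apply JJ.ext
    intro g
    rfl
  map_add' f f' := by
    apply JJ.ext
    intro g
    rfl

@[simp] lemma ev_ofJ (L : Level S) (q : Nat.Primes) (f : (L.J q).V) (g : Tow.GQ) :
    JJ.ev S q g (ofJ L q f) = L.locCoe q (L.Jeval q f (QuotientGroup.mk g)) := rfl

lemma ofJ_injective (L : Level S) (q : Nat.Primes) : Function.Injective (ofJ L q) := by
  intro f f' h
  apply L.J_ext q
  intro g
  induction g using QuotientGroup.induction_on with
  | H g =>
    apply L.locCoe_injective q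
    exact congrArg (JJ.ev S q g) h

lemma ofJ_smul (L : Level S) (q : Nat.Primes) (γ : Tow.GQ) (f : (L.J q).V) :
    ofJ L q ((L.J q).ρ (QuotientGroup.mk γ) f) = γ • ofJ L q f := by
  apply JJ.ext
  intro g
  rw [JJ.ev_smul, ev_ofJ, ev_ofJ, L.Jeval_ρ]
  rfl

lemma ofJ_trJ {L L' : Level S} (h : L ≤ L') (q : Nat.Primes) (f : (L.J q).V) :
    ofJ L' q ((Level.trJ h q).hom f) = ofJ L q f := by
  apply JJ.ext
  intro g
  rfl

lemma ofJ_fixed (L : Level S) (q : Nat.Primes) (f : (L.J q).V) (u : Tow.GQ) (hu : u ∈ L.U) :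
    u • ofJ L q f = ofJ L q f := by
  apply JJ.ext
  intro g
  rw [JJ.ev_smul, ev_ofJ, ev_ofJ, mk_mul_of_mem L g hu]

lemma ev_mul_of_fixed (L : Level S) (q : Nat.Primes) (x : JJ S q)
    (hx : ∀ u ∈ L.U, u • x = x) (g u : Tow.GQ) (hu : u ∈ L.U) :
    JJ.ev S q (g * u) x = JJ.ev S q g x := by
  rw [← JJ.ev_smul, hx u hu]

lemma ev_eq_of_mk_eq (L : Level S) (q : Nat.Primes) (x : JJ S q)
    (hx : ∀ u ∈ L.U, u • x = x) {g g' : Tow.GQ}
    (h : (QuotientGroup.mk g : L.Gal) = QuotientGroup.mk g') :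
    JJ.ev S q g x = JJ.ev S q g' x := by
  have h1 : g⁻¹ * g' ∈ L.U := QuotientGroup.eq.1 h
  have h2 := ev_mul_of_fixed L q x hx g _ h1
  rw [mul_inv_cancel_left] at h2
  exact h2.symm

lemma ev_locFixed (L : Level S) (q : Nat.Primes) (x : JJ S q)
    (hx : ∀ u ∈ L.U, u • x = x) (g : Tow.GQ) (d : GQp q) (hd : d ∈ L.V q) :
    (unitsQpbar q).ρ d (JJ.ev S q g x) = JJ.ev S q g x := by
  rw [← JJ.ev_mul_left]
  have h1 : locQ q d * g = g * (g⁻¹ * locQ q d * g) := by group
  rw [h1]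
  exact ev_mul_of_fixed L q x hx g _ (Level.conj_mem_U' S L hd g)

/-- the `U_F`-invariants of `𝕁_q` are `J_q(F)` -/
lemma exists_ofJ_eq (L : Level S) (q : Nat.Primes) (x : JJ S q)
    (hx : ∀ u ∈ L.U, u • x = x) : ∃ f : (L.J q).V, ofJ L q f = x := by
  let φ : L.Gal → (L.locUnits q).V := fun gb =>
    L.locMk q (JJ.ev S q (Quotient.out gb) x) (fun d hd => ev_locFixed L q x hx _ d hd)
  have hφ : ∀ g : Tow.GQ, L.locCoe q (φ (QuotientGroup.mk g)) = JJ.ev S q g x := by
    intro g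
    show JJ.ev S q (Quotient.out (QuotientGroup.mk g : L.Gal)) x = _
    exact ev_eq_of_mk_eq L q x hx (QuotientGroup.out_eq' _)
  have hφeq : ∀ (d : L.Dec q) (g : L.Gal),
      φ (L.decHom q d * g) = (L.locUnits q).ρ d (φ g) := by
    intro d g
    induction d using QuotientGroup.induction_on with
    | H d =>
      induction g using QuotientGroup.induction_on with
      | H g =>
        apply L.locCoe_injective q
        have h1 : L.decHom q (QuotientGroup.mk d) * (QuotientGroup.mk g : L.Gal) =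
            QuotientGroup.mk (locQ q d * g) := rfl
        rw [h1, hφ, Level.locUnits_ρ_coe, hφ, JJ.ev_mul_left]
  refine ⟨⟨φ, hφeq⟩, ?_⟩
  apply JJ.ext
  intro g
  rw [ev_ofJ]
  exact hφ g

/-! ### `J(F) → 𝕁` -/

/-- `J(F) = ∏_q J_q(F)` as a subgroup of `𝕁` -/
def ofJtot (L : Level S) : (Jtot L).V →+ JJS S :=
  AddMonoidHom.mk' (fun x q => ofJ L q.1 (piTo x q)) (fun x y => by
    funext q
    exact map_add (ofJ L q.1) _ _)

@[simp] lemma proj_ofJtot (L : Level S) (x : (Jtot L).V) (q : ↥S) :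
    JJS.proj S q (ofJtot L x) = ofJ L q.1 (piTo x q) := rfl

lemma ofJtot_injective (L : Level S) : Function.Injective (ofJtot L) := by
  intro x y h
  apply piRep_ext
  intro q
  exact ofJ_injective L q.1 (congrArg (JJS.proj S q) h)

lemma ofJtot_smul (L : Level S) (γ : Tow.GQ) (x : (Jtot L).V) :
    ofJtot L ((Jtot L).ρ (QuotientGroup.mk γ) x) = γ • ofJtot L x := by
  apply JJS.ext
  intro q
  rw [JJS.proj_smul, proj_ofJtot, proj_ofJtot]
  exact ofJ_smul L q.1 γ (piTo x q)

lemma ofJtot_tr {L L' : Level S} (h : L ≤ L') (x : (Jtot L).V) :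
    ofJtot L' ((trJtot h).hom x) = ofJtot L x := by
  apply JJS.ext
  intro q
  rw [proj_ofJtot, proj_ofJtot, piTo_trJtot]
  exact ofJ_trJ h q.1 (piTo x q)

lemma ofJtot_fixed (L : Level S) (x : (Jtot L).V) (u : Tow.GQ) (hu : u ∈ L.U) :
    u • ofJtot L x = ofJtot L x := by
  apply JJS.ext
  intro q
  rw [JJS.proj_smul, proj_ofJtot]
  exact ofJ_fixed L q.1 _ u hu

lemma exists_ofJtot_eq (L : Level S) (x : JJS S) (hx : ∀ u ∈ L.U, u • x = x) :
    ∃ y : (Jtot L).V, ofJtot L y = x := by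
  have h : ∀ q : ↥S, ∃ f : (L.J q.1).V, ofJ L q.1 f = JJS.proj S q x := fun q =>
    exists_ofJ_eq L q.1 _ (fun u hu => by rw [← JJS.proj_smul, hx u hu])
  choose f hf using h
  refine ⟨piOf f, ?_⟩
  apply JJS.ext
  intro q
  rw [proj_ofJtot, piTo_piOf, hf]

/-! ### `S`-units -/

/-- an `S`-unit of level `L` as a smooth `S`-unit -/
def suOf (L : Level S) (e : L.units.V) (he : L.IsSUnit e) : SU S :=
  SU.mk S (L.unitsCoe e) ((isSUq_iff S L e).1 he) ⟨L, fun g hg => L.unitsCoe_fixed e g hg⟩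

lemma iEJq_suOf (L : Level S) (q : Nat.Primes) (e : L.units.V) (he : L.IsSUnit e) :
    iEJq S q (suOf L e he) = ofJ L q ((L.diag q).hom e) := by
  apply JJ.ext
  intro g
  rfl

lemma iEJ_suOf (L : Level S) (e : L.units.V) (he : L.IsSUnit e) :
    iEJ S (suOf L e he) = ofJtot L (piOf (fun q : ↥S => (L.diag q.1).hom e)) := by
  apply JJS.ext
  intro q
  rw [proj_iEJ, proj_ofJtot, piTo_piOf]
  exact iEJq_suOf L q.1 e he

/-- **GD4** in terms of the big modules: the kernel of `J(F) → C(F)` is `J(F) ∩ 𝔼`. -/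
lemma jTot_eq_zero_iff {p : ℕ} (D : TowerDatum S) (hD : D.IsGoodMu p) (L : Level S)
    (x : (Jtot L).V) :
    (jTot D L).hom x = 0 ↔ ∃ e : SU S, iEJ S e = ofJtot L x := by
  rw [jTot_apply]
  constructor
  · intro h
    obtain ⟨e, he, hx⟩ := (hD.gd4 L (fun q => piTo x q)).1 h
    refine ⟨suOf L e he, ?_⟩
    rw [iEJ_suOf]
    congr 1
    apply piRep_ext
    intro q
    rw [piTo_piOf]
    exact (hx q).symm
  · rintro ⟨e, he⟩
    rcases S.eq_empty_or_nonempty with hS | hS
    · subst hS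
      exact Finset.sum_eq_zero (fun q _ => absurd q.2 (Finset.notMem_empty _))
    · have hfix : ∀ u ∈ L.U, unitsQbar.ρ u (SU.val S e) = SU.val S e := by
        intro u hu
        have h1 : iEJ S (u • e) = iEJ S e := by
          rw [iEJ_smul, he, ofJtot_fixed L x u hu]
        exact congrArg (SU.val S) (iEJ_injective S hS h1)
      refine (hD.gd4 L (fun q => piTo x q)).2
        ⟨L.unitsMk (SU.val S e) hfix, (isSUq_iff S L _).2 (SU.isSUq S e), fun q => ?_⟩
      apply ofJ_injective L q.1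
      have h2 := congrArg (JJS.proj S q) he
      rw [proj_iEJ, proj_ofJtot] at h2
      rw [← h2]
      apply JJ.ext
      intro g
      rfl

end Fermat.Agent.S55.Cap.H424
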