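import Fermat.Agent.S55.Cap.C1H424.Abstract
import Fermat.Agent.S55.Cap.C1H424.Dict
import Fermat.Agent.S55.PT.LevelsNormal

/-!
# S55 / A8 (CAP), leaf C1 — actions, additive maps and finite-level lifting   (helper424)
-/

set_option autoImplicit false
set_option linter.unusedVariables false
set_option linter.unusedSectionVars false
set_option linter.style.haveILetI false

noncomputable section

namespace Fermat.Agent.S55.Cap.H424

open Fermat.Agent.S55.PT Fermat.Agent.S55.Tow Fermat.Agent.S55.E1.Lim Fermat.Agent.S55.Cap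
open CategoryTheory groupCohomology

variable {S : Finset Nat.Primes}

/-! ### actions -/

/-- the action of `G_ℚ` on a `Gal(F/ℚ)`-module -/
@[reducible] def quotDMA (L : Level S) (A : Rep.{0} ℤ L.Gal) : DistribMulAction Tow.GQ A.V where
  smul g a := A.ρ (QuotientGroup.mk g) a
  one_smul a := DFunLike.congr_fun (map_one A.ρ) a
  mul_smul g h a := DFunLike.congr_fun (map_mul A.ρ (QuotientGroup.mk g) (QuotientGroup.mk h)) a
  smul_zero g := map_zero (A.ρ (QuotientGroup.mk g))
  smul_add g a b := map_add (A.ρ (QuotientGroup.mk g)) a b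

/-- the action of a subgroup on a `G`-module -/
@[reducible] def subDMA {G : Type} [Group G] (A : Rep.{0} ℤ G) (H : Subgroup G) :
    DistribMulAction ↥H A.V where
  smul g a := A.ρ (g : G) a
  one_smul a := DFunLike.congr_fun (map_one A.ρ) a
  mul_smul g h a := DFunLike.congr_fun (map_mul A.ρ (g : G) (h : G)) a
  smul_zero g := map_zero (A.ρ (g : G))
  smul_add g a b := map_add (A.ρ (g : G)) a b

attribute [local instance] quotDMA subDMA

lemma quot_smul_def (L : Level S) (A : Rep.{0} ℤ L.Gal) (g : Tow.GQ) (a : A.V) :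
    g • a = A.ρ (QuotientGroup.mk g) a := rfl

lemma sub_smul_def {G : Type} [Group G] (A : Rep.{0} ℤ G) (H : Subgroup G) (g : ↥H) (a : A.V) :
    g • a = A.ρ (g : G) a := rfl

/-! ### `H¹ = 0` in cochain form -/

lemma coboundary_of_isZero {G : Type} [Group G] (A : Rep.{0} ℤ G)
    (h : Limits.IsZero (groupCohomology A 1)) (z : G → A.V)
    (hz : ∀ s t, z (s * t) = z s + A.ρ s (z t)) : ∃ y : A.V, ∀ s, z s = A.ρ s y - y := by
  have hmem : z ∈ cocycles₁ A := (mem_cocycles₁_iff z).2 (fun g k => by rw [hz, add_comm])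
  have h0 : (H1π A).hom ⟨z, hmem⟩ = 0 := by
    have : H1π A = 0 := h.eq_zero_of_tgt _
    rw [this]
    rfl
  obtain ⟨y, hy⟩ := (H1π_eq_zero_iff (⟨z, hmem⟩ : cocycles₁ A)).1 h0
  refine ⟨y, fun s => ?_⟩
  have := congrFun hy s
  rw [d₀₁_hom_apply] at this
  exact this.symm

/-! ### the additive maps of the tower -/

variable (D : TowerDatum S)

/-- `J(F) → C(F)` -/
def jT (L : Level S) : (Jtot L).V →+ (D.C L).V :=
  AddMonoidHom.mk' (fun x => (jTot D L).hom x) (fun x y => map_add (jTot D L).hom x y)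

/-- `J(F) → J(F')` -/
def trJA {L L' : Level S} (h : L ≤ L') : (Jtot L).V →+ (Jtot L').V :=
  AddMonoidHom.mk' (fun x => (trJtot h).hom x) (fun x y => map_add (trJtot h).hom x y)

/-- `C(F) → C(F')` -/
def trCA {L L' : Level S} (h : L ≤ L') : (D.C L).V →+ (D.C L').V :=
  AddMonoidHom.mk' (fun x => (D.tr h).hom x) (fun x y => map_add (D.tr h).hom x y)

@[simp] lemma jT_apply (L : Level S) (x : (Jtot L).V) : jT D L x = (jTot D L).hom x := rfl
@[simp] lemma trJA_apply {L L' : Level S} (h : L ≤ L') (x : (Jtot L).V) :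
    trJA h x = (trJtot h).hom x := rfl
@[simp] lemma trCA_apply {L L' : Level S} (h : L ≤ L') (x : (D.C L).V) :
    trCA D h x = (D.tr h).hom x := rfl

lemma jT_smul (L : Level S) (g : Tow.GQ) (x : (Jtot L).V) : jT D L (g • x) = g • jT D L x :=
  Rep.hom_comm_apply (jTot D L) (QuotientGroup.mk g) x

lemma trJA_smul {L L' : Level S} (h : L ≤ L') (g : Tow.GQ) (x : (Jtot L).V) :
    trJA h (g • x) = g • trJA h x :=
  Rep.hom_comm_apply (trJtot h) (QuotientGroup.mk g) x

lemma trCA_smul {L L' : Level S} (h : L ≤ L') (g : Tow.GQ) (x : (D.C L).V) :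
    trCA D h (g • x) = g • trCA D h x :=
  Rep.hom_comm_apply (D.tr h) (QuotientGroup.mk g) x

lemma ofJtot_smul' (L : Level S) (g : Tow.GQ) (x : (Jtot L).V) :
    ofJtot L (g • x) = g • ofJtot L x := ofJtot_smul L g x

lemma ofJtot_trJA {L L' : Level S} (h : L ≤ L') (x : (Jtot L).V) :
    ofJtot L' (trJA h x) = ofJtot L x := ofJtot_tr h x

variable {D}

lemma trCA_jT {p : ℕ} (hD : D.IsGoodMu p) {L L' : Level S} (h : L ≤ L') (x : (Jtot L).V) :
    trCA D h (jT D L x) = jT D L' (trJA h x) :=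
  tr_jTot (D := D) (fun h q hq x => hD.gd7a h q hq x) h x

lemma trCA_trans {p : ℕ} (hD : D.IsGoodMu p) {L L' L'' : Level S} (h : L ≤ L') (h' : L' ≤ L'')
    (c : (D.C L).V) : trCA D h' (trCA D h c) = trCA D (h.trans h') c :=
  hD.gd7b h h' c

/-! ### `IndM`-versions -/

variable (U : Subgroup Tow.GQ)

lemma map_jT_smul (L : Level S) (g : Tow.GQ) (F : IndM U (Jtot L).V) :
    IndM.map U (jT D L) (g • F) = g • IndM.map U (jT D L) F :=
  IndM.map_smul' U (jT D L) (jT_smul D L) g F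

lemma map_trCA_smul {L L' : Level S} (h : L ≤ L') (g : Tow.GQ) (F : IndM U (D.C L).V) :
    IndM.map U (trCA D h) (g • F) = g • IndM.map U (trCA D h) F :=
  IndM.map_smul' U (trCA D h) (trCA_smul D h) g F

lemma map_trJA_smul {L L' : Level S} (h : L ≤ L') (g : Tow.GQ) (F : IndM U (Jtot L).V) :
    IndM.map U (trJA h) (g • F) = g • IndM.map U (trJA h) F :=
  IndM.map_smul' U (trJA h) (trJA_smul h) g F

lemma map_ofJtot_smul (L : Level S) (g : Tow.GQ) (F : IndM U (Jtot L).V) :
    IndM.map U (ofJtot L) (g • F) = g • IndM.map U (ofJtot L) F :=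
  IndM.map_smul' U (ofJtot L) (ofJtot_smul' L) g F

lemma map_ofJtot_trJA {L L' : Level S} (h : L ≤ L') (F : IndM U (Jtot L).V) :
    IndM.map U (ofJtot L') (IndM.map U (trJA h) F) = IndM.map U (ofJtot L) F := by
  have h1 : (ofJtot L').comp (trJA h) = ofJtot L := AddMonoidHom.ext (ofJtot_trJA h)
  rw [← IndM.map_comp, h1]

lemma map_trCA_jT {p : ℕ} (hD : D.IsGoodMu p) {L L' : Level S} (h : L ≤ L')
    (F : IndM U (Jtot L).V) :
    IndM.map U (trCA D h) (IndM.map U (jT D L) F) =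
      IndM.map U (jT D L') (IndM.map U (trJA h) F) := by
  have h1 : (trCA D h).comp (jT D L) = (jT D L').comp (trJA h) :=
    AddMonoidHom.ext (trCA_jT hD h)
  rw [← IndM.map_comp, ← IndM.map_comp, h1]

lemma map_trCA_trans {p : ℕ} (hD : D.IsGoodMu p) {L L' L'' : Level S} (h : L ≤ L')
    (h' : L' ≤ L'') (F : IndM U (D.C L).V) :
    IndM.map U (trCA D h') (IndM.map U (trCA D h) F) = IndM.map U (trCA D (h.trans h')) F := by
  have h1 : (trCA D h').comp (trCA D h) = trCA D (h.trans h') :=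
    AddMonoidHom.ext (trCA_trans hD h h')
  rw [← IndM.map_comp, h1]

lemma map_nsmul' {X Y : Type} [AddCommGroup X] [AddCommGroup Y] (φ : X →+ Y) (n : ℕ)
    (F : IndM U X) : IndM.map U φ (n • F) = n • IndM.map U φ F := map_nsmul _ _ _

/-- the kernel of `Ind_U J(F) → Ind_U C(F)` consists of elements of `Ind_U 𝔼` -/
lemma exists_iEJ_of_map_jT_eq_zero {p : ℕ} (hD : D.IsGoodMu p) (L : Level S)
    (F : IndM U (Jtot L).V) (hF : IndM.map U (jT D L) F = 0) :
    ∃ e : IndM U (SU S), IndM.map U (iEJ S) e = IndM.map U (ofJtot L) F := by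
  apply IndM.exists_map_eq_of_forall
  intro x
  have h1 : jT D L (IndM.toF U F x) = 0 := by
    rw [← IndM.map_apply, hF]
    rfl
  obtain ⟨e, he⟩ := (jTot_eq_zero_iff D hD L _).1 h1
  exact ⟨e, by rw [he, IndM.map_apply]⟩

/-- elements of `Ind_U J(F)` which lie in `Ind_U 𝔼` die in `Ind_U C(F)` -/
lemma map_jT_eq_zero_of_iEJ {p : ℕ} (hD : D.IsGoodMu p) (L : Level S)
    (F : IndM U (Jtot L).V) (e : IndM U (SU S))
    (he : IndM.map U (iEJ S) e = IndM.map U (ofJtot L) F) : IndM.map U (jT D L) F = 0 := by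
  apply IndM.ext'
  intro x
  rw [IndM.map_apply, IndM.toF_zero]
  refine (jTot_eq_zero_iff D hD L _).2 ⟨IndM.toF U e x, ?_⟩
  rw [← IndM.map_apply, he, IndM.map_apply]

/-! ### finite-level lifting -/

instance instIsDirectedLevel : IsDirected (Level S) (· ≤ ·) :=
  ⟨fun a b => ⟨capSup S a b, le_capSup_left S a b, le_capSup_right S a b⟩⟩

instance instNonemptyLevel : Nonempty (Level S) := ⟨capBot S⟩

/-- every element of `Ind_U 𝕁` comes from a finite level -/
lemma exists_level_lift (F : IndM U (JJS S)) :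
    ∃ (L : Level S) (F' : IndM U (Jtot L).V), IndM.map U (ofJtot L) F' = F := by
  induction F using IndM.induction_on with
  | h0 => exact ⟨capBot S, 0, map_zero _⟩
  | hadd F₁ F₂ h₁ h₂ =>
    obtain ⟨L₁, F₁', rfl⟩ := h₁
    obtain ⟨L₂, F₂', rfl⟩ := h₂
    refine ⟨capSup S L₁ L₂, IndM.map U (trJA (le_capSup_left S L₁ L₂)) F₁' +
      IndM.map U (trJA (le_capSup_right S L₁ L₂)) F₂', ?_⟩
    rw [map_add, map_ofJtot_trJA, map_ofJtot_trJA]
  | hsingle x a =>
    obtain ⟨L, hL⟩ := JJS.smooth S a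
    obtain ⟨y, rfl⟩ := exists_ofJtot_eq L a hL
    exact ⟨L, IndM.single U x y, IndM.map_single U _ x y⟩

lemma exists_lift_of_le {L L' : Level S} (h : L ≤ L') (F : IndM U (JJS S))
    (hF : ∃ F' : IndM U (Jtot L).V, IndM.map U (ofJtot L) F' = F) :
    ∃ F' : IndM U (Jtot L').V, IndM.map U (ofJtot L') F' = F := by
  obtain ⟨F', rfl⟩ := hF
  exact ⟨IndM.map U (trJA h) F', map_ofJtot_trJA U h F'⟩

/-- a cochain which is constant modulo a level takes its values in a finite level -/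
lemma exists_level_lift_all (La L₂ : Level S) (b : Tow.GQ → IndM U (JJS S))
    (hb : ∀ g s : Tow.GQ, s ∈ La.U → b (g * s) = b g) :
    ∃ L : Level S, L₂ ≤ L ∧ ∀ g, ∃ F' : IndM U (Jtot L).V, IndM.map U (ofJtot L) F' = b g := by
  have h1 : ∀ x : La.Gal, ∃ L : Level S, ∃ F' : IndM U (Jtot L).V,
      IndM.map U (ofJtot L) F' = b (Quotient.out x) := fun x => exists_level_lift U _
  choose Lx hLx using h1
  obtain ⟨M, hM⟩ := Finite.exists_le Lx
  obtain ⟨L, hML, hL₂⟩ := exists_ge_ge M L₂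
  refine ⟨L, hL₂, fun g => ?_⟩
  have h2 : b g = b (Quotient.out (QuotientGroup.mk g : La.Gal)) := by
    have h3 : g⁻¹ * Quotient.out (QuotientGroup.mk g : La.Gal) ∈ La.U :=
      QuotientGroup.eq.1 (QuotientGroup.out_eq' _).symm
    have := hb g _ h3
    rw [mul_inv_cancel_left] at this
    exact this.symm
  rw [h2]
  exact exists_lift_of_le U ((hM _).trans hML) _ (hLx _)

end Fermat.Agent.S55.Cap.H424
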